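/-
GATE-K / K4' GLUE-ABS (helper47): abstract glueing constants on a nodal fibre.  Mathlib only.

Setting: `k` an infinite field, `V1`, `V2` two `k`-spaces (think `L~_1(E~_1)`, `L~_2(E~_2)` on the
two components of the special fibre), `ι` the finite set of nodes, `e1 x : V1 →ₗ k`,
`e2 x : V2 →ₗ k` the evaluations at the two branches of the node `x`.

`glueSub e1 e2 J ξ` is the subspace of pairs `(z1, z2)` with `z1 = 0 = z2` at the nodes of `J` and
`z1(x) = ξ x * z2(x)` at the nodes outside `J`.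

* `node_alternative`, `exists_glue_of_pow` (A): a SUBSPACE `Λ` all of whose elements satisfy
  `(e1 x z.1) ^ m = c * (e2 x z.2) ^ m` at every node lies in ONE `glueSub e1 e2 J ξ`
  (`ξ x ^ m = c` off `J`): a vector space over an infinite field is not a finite union of proper
  subspaces.
* `finrank_glueSub` (B): if the joint evaluation `V1 × V2 → k^ι × k^ι` is onto, then
  `finrank (glueSub J ξ) + card ι + card J = finrank V1 + finrank V2`.
* `eq_glueSub_of_finrank`, `exists_eq_glueSub` (C): with the dimension equality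
  `finrank Λ + card ι = finrank V1 + finrank V2` one gets `J = ∅` and `Λ = glueSub ∅ ξ` exactly.
* `glueSub_empty_injective`: `ξ` is unique; `exists_mem_glueSub_ne_zero`: a section which is
  non-zero at every node; `mul_mem_glueSub`: multiplicativity; `eq_one_of_mul_mem`: the
  `(SS)`-extraction (`ξ₃ = 1` as soon as a product non-vanishing at the nodes lies in both
  `glueSub ∅ 1` and `glueSub ∅ ξ₃`); `const_mem_glueSub`: constant pairs.
-/
import Mathlib

set_option autoImplicit false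

namespace Fermat.Agent.GK.Glue

open Module

section Defs

variable {k : Type*} [Field k]
variable {V1 V2 : Type*} [AddCommGroup V1] [Module k V1] [AddCommGroup V2] [Module k V2]
variable {ι : Type*}

/-- The glued subspace: pairs vanishing at both branches of the nodes of `J` and satisfying
`z1(x) = ξ x * z2(x)` at the nodes outside `J`. -/
def glueSub (e1 : ι → V1 →ₗ[k] k) (e2 : ι → V2 →ₗ[k] k) (J : Finset ι) (ξ : ι → k) :
    Submodule k (V1 × V2) where
  carrier := {z | (∀ x ∈ J, e1 x z.1 = 0 ∧ e2 x z.2 = 0) ∧ ∀ x ∉ J, e1 x z.1 = ξ x * e2 x z.2}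
  zero_mem' := by
    refine ⟨fun x _ => ?_, fun x _ => ?_⟩ <;> simp
  add_mem' := by
    rintro a b ⟨ha1, ha2⟩ ⟨hb1, hb2⟩
    refine ⟨fun x hx => ?_, fun x hx => ?_⟩
    · simp [(ha1 x hx).1, (ha1 x hx).2, (hb1 x hx).1, (hb1 x hx).2]
    · simp only [Prod.fst_add, Prod.snd_add, map_add, ha2 x hx, hb2 x hx]
      ring
  smul_mem' := by
    rintro a z ⟨hz1, hz2⟩
    refine ⟨fun x hx => ?_, fun x hx => ?_⟩
    · simp [(hz1 x hx).1, (hz1 x hx).2]
    · simp only [Prod.smul_fst, Prod.smul_snd, map_smul, smul_eq_mul, hz2 x hx]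
      ring

theorem mem_glueSub {e1 : ι → V1 →ₗ[k] k} {e2 : ι → V2 →ₗ[k] k} {J : Finset ι} {ξ : ι → k}
    {z : V1 × V2} :
    z ∈ glueSub e1 e2 J ξ ↔
      (∀ x ∈ J, e1 x z.1 = 0 ∧ e2 x z.2 = 0) ∧ ∀ x ∉ J, e1 x z.1 = ξ x * e2 x z.2 :=
  Iff.rfl

theorem mem_glueSub_empty {e1 : ι → V1 →ₗ[k] k} {e2 : ι → V2 →ₗ[k] k} {ξ : ι → k}
    {z : V1 × V2} :
    z ∈ glueSub e1 e2 ∅ ξ ↔ ∀ x, e1 x z.1 = ξ x * e2 x z.2 := by
  rw [mem_glueSub]
  constructor
  · rintro ⟨_, h⟩ x
    exact h x (Finset.notMem_empty x)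
  · intro h
    exact ⟨fun x hx => absurd hx (Finset.notMem_empty x), fun x _ => h x⟩

/-- The joint evaluation map at the two branches of all the nodes. -/
def evPair (e1 : ι → V1 →ₗ[k] k) (e2 : ι → V2 →ₗ[k] k) : V1 × V2 →ₗ[k] (ι → k) × (ι → k) :=
  LinearMap.prodMap (LinearMap.pi e1) (LinearMap.pi e2)

@[simp] theorem evPair_apply (e1 : ι → V1 →ₗ[k] k) (e2 : ι → V2 →ₗ[k] k) (z : V1 × V2) :
    evPair e1 e2 z = (fun x => e1 x z.1, fun x => e2 x z.2) := rfl

end Defs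

section Union

variable {k : Type*} [Field k] [Infinite k]
variable {V1 V2 : Type*} [AddCommGroup V1] [Module k V1] [AddCommGroup V2] [Module k V2]

/-- **One node.**  If every element of the subspace `Λ` satisfies `z1(x)^m = c * z2(x)^m`, then
either all of `Λ` vanishes at both branches, or there is ONE `m`-th root `r` of `c` with
`z1(x) = r * z2(x)` on all of `Λ`. -/
theorem node_alternative (e1x : V1 →ₗ[k] k) (e2x : V2 →ₗ[k] k) (Λ : Submodule k (V1 × V2))
    {m : ℕ} (hm : 0 < m) (c : k)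
    (h : ∀ z ∈ Λ, (e1x z.1) ^ m = c * (e2x z.2) ^ m) :
    (∀ z ∈ Λ, e1x z.1 = 0 ∧ e2x z.2 = 0) ∨
      ∃ r : k, r ^ m = c ∧ ∀ z ∈ Λ, e1x z.1 = r * e2x z.2 := by
  classical
  -- the finitely many subspaces
  let R : Finset k := (Polynomial.nthRoots m c).toFinset
  have hR : ∀ r : k, r ∈ R ↔ r ^ m = c := fun r => by
    simp only [R, Multiset.mem_toFinset, Polynomial.mem_nthRoots hm]
  let f1 : V1 × V2 →ₗ[k] k := e1x ∘ₗ LinearMap.fst k V1 V2
  let f2 : V1 × V2 →ₗ[k] k := e2x ∘ₗ LinearMap.snd k V1 V2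
  let S : Option R → Submodule k (V1 × V2) := fun i =>
    match i with
    | none => LinearMap.ker f1 ⊓ LinearMap.ker f2
    | some r => LinearMap.ker (f1 - (r : k) • f2)
  let p : Option R → Submodule k Λ := fun i => (S i).comap Λ.subtype
  have hcover : ⋃ i, (p i : Set Λ) = Set.univ := by
    refine Set.eq_univ_of_forall fun z => ?_
    rw [Set.mem_iUnion]
    by_cases h2 : e2x (z : V1 × V2).2 = 0
    · refine ⟨none, ?_⟩
      have h1 : e1x (z : V1 × V2).1 = 0 := by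
        have := h z z.2
        rw [h2, zero_pow hm.ne', mul_zero] at this
        exact pow_eq_zero_iff hm.ne' |>.1 this
      change (z : V1 × V2) ∈ LinearMap.ker f1 ⊓ LinearMap.ker f2
      rw [Submodule.mem_inf, LinearMap.mem_ker, LinearMap.mem_ker]
      exact ⟨h1, h2⟩
    · have hr : (e1x (z : V1 × V2).1 / e2x (z : V1 × V2).2) ^ m = c := by
        rw [div_pow, h z z.2, mul_div_assoc, div_self (pow_ne_zero m h2), mul_one]
      refine ⟨some ⟨_, (hR _).2 hr⟩, ?_⟩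
      change (z : V1 × V2) ∈ LinearMap.ker (f1 - (e1x (z : V1 × V2).1 / e2x (z : V1 × V2).2) • f2)
      rw [LinearMap.mem_ker]
      change e1x (z : V1 × V2).1 - (e1x (z : V1 × V2).1 / e2x (z : V1 × V2).2) *
        e2x (z : V1 × V2).2 = 0
      rw [div_mul_cancel₀ _ h2, sub_self]
  obtain ⟨i, hi⟩ := Subspace.exists_eq_top_of_iUnion_eq_univ hcover
  have hall : ∀ z ∈ Λ, z ∈ S i := fun z hz => by
    have : (⟨z, hz⟩ : Λ) ∈ p i := by rw [hi]; exact Submodule.mem_top
    exact this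
  cases i with
  | none =>
    left
    intro z hz
    have := hall z hz
    change z ∈ LinearMap.ker f1 ⊓ LinearMap.ker f2 at this
    rw [Submodule.mem_inf, LinearMap.mem_ker, LinearMap.mem_ker] at this
    exact this
  | some r =>
    right
    refine ⟨r, (hR _).1 r.2, fun z hz => ?_⟩
    have := hall z hz
    change z ∈ LinearMap.ker (f1 - (r : k) • f2) at this
    rw [LinearMap.mem_ker] at this
    change e1x z.1 - (r : k) * e2x z.2 = 0 at this
    exact sub_eq_zero.1 this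

variable {ι : Type*} [Fintype ι]

/-- **(A) All nodes.**  A subspace `Λ ≤ V1 × V2` all of whose elements satisfy
`z1(x)^m = c * z2(x)^m` at every node `x` lies in ONE glued subspace `glueSub e1 e2 J ξ`, with
`ξ x ^ m = c` for `x ∉ J`. -/
theorem exists_glue_of_pow (e1 : ι → V1 →ₗ[k] k) (e2 : ι → V2 →ₗ[k] k)
    (Λ : Submodule k (V1 × V2)) {m : ℕ} (hm : 0 < m) (c : k)
    (h : ∀ z ∈ Λ, ∀ x, (e1 x z.1) ^ m = c * (e2 x z.2) ^ m) :
    ∃ (J : Finset ι) (ξ : ι → k), (∀ x ∉ J, ξ x ^ m = c) ∧ Λ ≤ glueSub e1 e2 J ξ := by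
  classical
  let J : Finset ι := Finset.univ.filter fun x => ∀ z ∈ Λ, e1 x z.1 = 0 ∧ e2 x z.2 = 0
  have hJ : ∀ x, x ∈ J ↔ ∀ z ∈ Λ, e1 x z.1 = 0 ∧ e2 x z.2 = 0 := fun x => by
    simp only [J, Finset.mem_filter, Finset.mem_univ, true_and]
  have hex : ∀ x, x ∉ J → ∃ r : k, r ^ m = c ∧ ∀ z ∈ Λ, e1 x z.1 = r * e2 x z.2 := by
    intro x hx
    rcases node_alternative (e1 x) (e2 x) Λ hm c (fun z hz => h z hz x) with h0 | hr
    · exact absurd ((hJ x).2 h0) hx
    · exact hr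
  let ξ : ι → k := fun x => if hx : x ∈ J then 0 else (hex x hx).choose
  refine ⟨J, ξ, fun x hx => ?_, fun z hz => ?_⟩
  · simp only [ξ, dif_neg hx]
    exact (hex x hx).choose_spec.1
  · refine ⟨fun x hx => (hJ x).1 hx z hz, fun x hx => ?_⟩
    simp only [ξ, dif_neg hx]
    exact (hex x hx).choose_spec.2 z hz

end Union

section Dim

variable {k : Type*} [Field k]
variable {V1 V2 : Type*} [AddCommGroup V1] [Module k V1] [AddCommGroup V2] [Module k V2]
variable {ι : Type*} [Fintype ι] [DecidableEq ι]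

/-- the linear map whose kernel is `glueSub e1 e2 J ξ` -/
def glueMap (e1 : ι → V1 →ₗ[k] k) (e2 : ι → V2 →ₗ[k] k) (J : Finset ι) (ξ : ι → k) :
    V1 × V2 →ₗ[k] (ι → k) × (↥J → k) :=
  LinearMap.prod
    (LinearMap.pi fun x =>
      if x ∈ J then e1 x ∘ₗ LinearMap.fst k V1 V2
      else e1 x ∘ₗ LinearMap.fst k V1 V2 - ξ x • (e2 x ∘ₗ LinearMap.snd k V1 V2))
    (LinearMap.pi fun x : ↥J => e2 (x : ι) ∘ₗ LinearMap.snd k V1 V2)

theorem glueMap_apply_fst (e1 : ι → V1 →ₗ[k] k) (e2 : ι → V2 →ₗ[k] k) (J : Finset ι) (ξ : ι → k)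
    (z : V1 × V2) (x : ι) :
    (glueMap e1 e2 J ξ z).1 x = if x ∈ J then e1 x z.1 else e1 x z.1 - ξ x * e2 x z.2 := by
  by_cases hx : x ∈ J
  · simp [glueMap, hx]
  · simp [glueMap, hx]

theorem glueMap_apply_snd (e1 : ι → V1 →ₗ[k] k) (e2 : ι → V2 →ₗ[k] k) (J : Finset ι) (ξ : ι → k)
    (z : V1 × V2) (x : ↥J) :
    (glueMap e1 e2 J ξ z).2 x = e2 (x : ι) z.2 := by
  simp [glueMap]

theorem ker_glueMap (e1 : ι → V1 →ₗ[k] k) (e2 : ι → V2 →ₗ[k] k) (J : Finset ι) (ξ : ι → k) :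
    LinearMap.ker (glueMap e1 e2 J ξ) = glueSub e1 e2 J ξ := by
  ext z
  rw [LinearMap.mem_ker, mem_glueSub, Prod.ext_iff]
  constructor
  · rintro ⟨h1, h2⟩
    refine ⟨fun x hx => ⟨?_, ?_⟩, fun x hx => ?_⟩
    · have := congrFun h1 x
      rw [glueMap_apply_fst, if_pos hx] at this
      exact this
    · have := congrFun h2 ⟨x, hx⟩
      rw [glueMap_apply_snd] at this
      exact this
    · have := congrFun h1 x
      rw [glueMap_apply_fst, if_neg hx] at this
      exact sub_eq_zero.1 this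
  · rintro ⟨h1, h2⟩
    refine ⟨funext fun x => ?_, funext fun x => ?_⟩
    · rw [glueMap_apply_fst]
      by_cases hx : x ∈ J
      · rw [if_pos hx]; exact (h1 x hx).1
      · rw [if_neg hx]; exact sub_eq_zero.2 (h2 x hx)
    · rw [glueMap_apply_snd]
      exact (h1 x x.2).2

theorem glueMap_surjective (e1 : ι → V1 →ₗ[k] k) (e2 : ι → V2 →ₗ[k] k) (J : Finset ι) (ξ : ι → k)
    (hsurj : Function.Surjective (evPair e1 e2)) :
    Function.Surjective (glueMap e1 e2 J ξ) := by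
  rintro ⟨a, b⟩
  obtain ⟨z, hz⟩ := hsurj (a, fun x => if hx : x ∈ J then b ⟨x, hx⟩ else 0)
  rw [evPair_apply, Prod.ext_iff] at hz
  obtain ⟨hz1, hz2⟩ := hz
  refine ⟨z, Prod.ext (funext fun x => ?_) (funext fun x => ?_)⟩
  · rw [glueMap_apply_fst]
    have h1 := congrFun hz1 x
    have h2 := congrFun hz2 x
    simp only at h1 h2
    by_cases hx : x ∈ J
    · rw [if_pos hx]; exact h1
    · rw [if_neg hx, h1, h2, dif_neg hx, mul_zero, sub_zero]
  · rw [glueMap_apply_snd]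
    have h2 := congrFun hz2 (x : ι)
    simp only at h2
    rw [h2, dif_pos x.2]

variable [FiniteDimensional k V1] [FiniteDimensional k V2]

/-- **(B)** If the joint evaluation is onto, `glueSub J ξ` has codimension `card ι + card J`. -/
theorem finrank_glueSub (e1 : ι → V1 →ₗ[k] k) (e2 : ι → V2 →ₗ[k] k) (J : Finset ι) (ξ : ι → k)
    (hsurj : Function.Surjective (evPair e1 e2)) :
    finrank k (glueSub e1 e2 J ξ) + Fintype.card ι + J.card = finrank k V1 + finrank k V2 := by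
  have h := LinearMap.finrank_range_add_finrank_ker (glueMap e1 e2 J ξ)
  rw [LinearMap.range_eq_top.2 (glueMap_surjective e1 e2 J ξ hsurj), finrank_top, ker_glueMap,
    Module.finrank_prod, Module.finrank_prod, Module.finrank_fintype_fun_eq_card,
    Module.finrank_fintype_fun_eq_card, Fintype.card_coe] at h
  omega

/-- **(C)** With the dimension equality, `J = ∅` and `Λ` IS the glued subspace. -/
theorem eq_glueSub_of_finrank (e1 : ι → V1 →ₗ[k] k) (e2 : ι → V2 →ₗ[k] k) (J : Finset ι)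
    (ξ : ι → k) (hsurj : Function.Surjective (evPair e1 e2)) (Λ : Submodule k (V1 × V2))
    (hle : Λ ≤ glueSub e1 e2 J ξ)
    (hdim : finrank k Λ + Fintype.card ι = finrank k V1 + finrank k V2) :
    J = ∅ ∧ Λ = glueSub e1 e2 ∅ ξ := by
  have hB := finrank_glueSub e1 e2 J ξ hsurj
  have hmono : finrank k Λ ≤ finrank k (glueSub e1 e2 J ξ) := Submodule.finrank_mono hle
  have hJ : J = ∅ := by
    rw [← Finset.card_eq_zero]
    omega
  subst hJ
  refine ⟨rfl, Submodule.eq_of_le_of_finrank_eq hle ?_⟩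
  rw [Finset.card_empty] at hB
  omega

end Dim

section Main

variable {k : Type*} [Field k] [Infinite k]
variable {V1 V2 : Type*} [AddCommGroup V1] [Module k V1] [AddCommGroup V2] [Module k V2]
variable [FiniteDimensional k V1] [FiniteDimensional k V2]
variable {ι : Type*} [Fintype ι] [DecidableEq ι]

/-- **(A)+(B)+(C): abstract glueing constants.**  A subspace `Λ ≤ V1 × V2` of the expected
dimension, all of whose elements satisfy `z1(x)^m = c * z2(x)^m` at every node, IS the glued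
subspace `glueSub ∅ ξ` for a (unique) family `ξ` of `m`-th roots of `c`. -/
theorem exists_eq_glueSub (e1 : ι → V1 →ₗ[k] k) (e2 : ι → V2 →ₗ[k] k)
    (hsurj : Function.Surjective (evPair e1 e2)) (Λ : Submodule k (V1 × V2))
    {m : ℕ} (hm : 0 < m) (c : k)
    (h : ∀ z ∈ Λ, ∀ x, (e1 x z.1) ^ m = c * (e2 x z.2) ^ m)
    (hdim : finrank k Λ + Fintype.card ι = finrank k V1 + finrank k V2) :
    ∃ ξ : ι → k, (∀ x, ξ x ^ m = c) ∧ Λ = glueSub e1 e2 ∅ ξ := by
  obtain ⟨J, ξ, hξ, hle⟩ := exists_glue_of_pow e1 e2 Λ hm c h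
  obtain ⟨hJ, hΛ⟩ := eq_glueSub_of_finrank e1 e2 J ξ hsurj Λ hle hdim
  subst hJ
  exact ⟨ξ, fun x => hξ x (Finset.notMem_empty x), hΛ⟩

end Main

section Unique

variable {k : Type*} [Field k]
variable {V1 V2 : Type*} [AddCommGroup V1] [Module k V1] [AddCommGroup V2] [Module k V2]
variable {ι : Type*}

/-- a section of the glued subspace which is non-zero (equal to `1` on the second branch) at
every node -/
theorem exists_mem_glueSub_ne_zero (e1 : ι → V1 →ₗ[k] k) (e2 : ι → V2 →ₗ[k] k) (ξ : ι → k)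
    (hsurj : Function.Surjective (evPair e1 e2)) :
    ∃ z ∈ glueSub e1 e2 ∅ ξ, ∀ x, e2 x z.2 = 1 := by
  obtain ⟨z, hz⟩ := hsurj (ξ, fun _ => 1)
  rw [evPair_apply, Prod.ext_iff] at hz
  obtain ⟨hz1, hz2⟩ := hz
  refine ⟨z, mem_glueSub_empty.2 fun x => ?_, fun x => congrFun hz2 x⟩
  have h1 := congrFun hz1 x
  have h2 := congrFun hz2 x
  simp only at h1 h2
  rw [h1, h2, mul_one]

/-- the glueing constants are determined by the glued subspace -/
theorem glueSub_empty_injective (e1 : ι → V1 →ₗ[k] k) (e2 : ι → V2 →ₗ[k] k) (ξ ξ' : ι → k)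
    (hsurj : Function.Surjective (evPair e1 e2))
    (h : glueSub e1 e2 ∅ ξ = glueSub e1 e2 ∅ ξ') : ξ = ξ' := by
  obtain ⟨z, hz, hz2⟩ := exists_mem_glueSub_ne_zero e1 e2 ξ hsurj
  funext x
  have h1 := mem_glueSub_empty.1 hz x
  have h2 := mem_glueSub_empty.1 (h ▸ hz) x
  rw [hz2 x, mul_one] at h1 h2
  rw [← h1, h2]

variable {V1' V2' V1'' V2'' : Type*} [AddCommGroup V1'] [Module k V1'] [AddCommGroup V2']
  [Module k V2'] [AddCommGroup V1''] [Module k V1''] [AddCommGroup V2''] [Module k V2'']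

/-- multiplicativity of the glueing constants -/
theorem mul_mem_glueSub {e1 : ι → V1 →ₗ[k] k} {e2 : ι → V2 →ₗ[k] k}
    {e1' : ι → V1' →ₗ[k] k} {e2' : ι → V2' →ₗ[k] k}
    {e1'' : ι → V1'' →ₗ[k] k} {e2'' : ι → V2'' →ₗ[k] k}
    (μ1 : V1 → V1' → V1'') (μ2 : V2 → V2' → V2'')
    (h1 : ∀ x a b, e1'' x (μ1 a b) = e1 x a * e1' x b)
    (h2 : ∀ x a b, e2'' x (μ2 a b) = e2 x a * e2' x b)
    {ξ ξ' : ι → k} {z : V1 × V2} {z' : V1' × V2'}
    (hz : z ∈ glueSub e1 e2 ∅ ξ) (hz' : z' ∈ glueSub e1' e2' ∅ ξ') :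
    (μ1 z.1 z'.1, μ2 z.2 z'.2) ∈ glueSub e1'' e2'' ∅ (ξ * ξ') := by
  rw [mem_glueSub_empty] at hz hz' ⊢
  intro x
  rw [h1, h2, hz x, hz' x, Pi.mul_apply]
  ring

/-- **`(SS)`-extraction.**  If a pair `w`, non-vanishing on the second branch at every node,
lies both in `glueSub ∅ ξ₀` and in `glueSub ∅ ξ₃`, then `ξ₃ = ξ₀`. -/
theorem eq_of_mem_of_mem {e1 : ι → V1 →ₗ[k] k} {e2 : ι → V2 →ₗ[k] k} {ξ₀ ξ₃ : ι → k}
    {w : V1 × V2} (h0 : w ∈ glueSub e1 e2 ∅ ξ₀) (h3 : w ∈ glueSub e1 e2 ∅ ξ₃)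
    (hw : ∀ x, e2 x w.2 ≠ 0) : ξ₃ = ξ₀ := by
  funext x
  have a := mem_glueSub_empty.1 h0 x
  have b := mem_glueSub_empty.1 h3 x
  rw [a] at b
  exact (mul_right_cancel₀ (hw x) b).symm

/-- constant pairs: if `one1`, `one2` evaluate to `1` at every node, then `(ξ₀ • one1, one2)` lies
in the glued subspace with constant glueing `ξ₀`. -/
theorem const_mem_glueSub {e1 : ι → V1 →ₗ[k] k} {e2 : ι → V2 →ₗ[k] k} {one1 : V1} {one2 : V2}
    (h1 : ∀ x, e1 x one1 = 1) (h2 : ∀ x, e2 x one2 = 1) (ξ₀ : k) :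
    (ξ₀ • one1, one2) ∈ glueSub e1 e2 ∅ fun _ => ξ₀ := by
  rw [mem_glueSub_empty]
  intro x
  rw [map_smul, h1, h2, smul_eq_mul]

end Unique

end Fermat.Agent.GK.Glue
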