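/-
GATE-K / N8b GLUE-CORE (helper47): the `ξ`-free bridge from GLUE-ABS (N8) to the (SS) assembly
(N10).  Mathlib + `GlueAbs` only.

`LamData k R1 R2 ι Y m` packages what the two-valuation lattice theory delivers:

* `R1`, `R2` : the coordinate rings of the two (affine) components of the special fibre,
  `e1 x : R1 →ₐ[k] k`, `e2 x : R2 →ₐ[k] k` the evaluations at the two branches of the node `x : ι`;
* `Lt1 n`, `Lt2 n` : the finite-dimensional spaces `L~_i(n E~_i)` (with `1`), joint evaluation onto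
  for `n ≥ n0` (Riemann–Roch on the components);
* `Y` : the group of "good units" (`m`-divisible, `w₁ = w₂ = 0`, constant reductions);
* `Lam y n = red (L(D_y + nE) ∩ Rw₁ ∩ Rw₂) ≤ Lt1 n × Lt2 n` of the expected dimension (`dim`),
  with the power relation `z₁(x)^m = c y * z₂(x)^m` (`pow`), multiplicative (`mul`), and
  `Lam 1 n` glued with constant `1` (`one`: elements of `B~` take equal values on the two branches).

Results:

* `exists_xi` : for `n ≥ n0`, `Lam y n = {z ∈ Lt1 n × Lt2 n | z₁(x) = ξ x * z₂(x)}` for a family `ξ`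
  of `m`-th roots of `c y`;
* `one_mem_Lam` : if `Lam τz n = Lam z n` (Galois invariance of the reduced lattice), then the
  CONSTANT pair `(1, 1)` lies in `Lam (τz / z) (n + n)` — the input of Claim 2;
* `xi`, `xi_spec`, `xi_unique`, `xi_one`, `xi_mul`, `xi_congr` : the glueing-constant map.
-/
import Fermat.Agent.GK.Glue.GlueAbs

set_option autoImplicit false

namespace Fermat.Agent.GK.Glue

open Module

/-- The reduced-lattice package on a nodal fibre (see the file header). -/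
structure LamData (k : Type*) [Field k] (R1 R2 : Type*) [CommRing R1] [Algebra k R1]
    [CommRing R2] [Algebra k R2] (ι : Type*) [Fintype ι] (Y : Type*) [CommGroup Y] (m : ℕ) where
  /-- evaluation at the first branch of the node `x` -/
  e1 : ι → R1 →ₐ[k] k
  /-- evaluation at the second branch of the node `x` -/
  e2 : ι → R2 →ₐ[k] k
  /-- `L~_1(n E~_1)` -/
  Lt1 : ℕ → Submodule k R1
  /-- `L~_2(n E~_2)` -/
  Lt2 : ℕ → Submodule k R2
  fin1 : ∀ n, FiniteDimensional k (Lt1 n)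
  fin2 : ∀ n, FiniteDimensional k (Lt2 n)
  one_mem1 : ∀ n, (1 : R1) ∈ Lt1 n
  one_mem2 : ∀ n, (1 : R2) ∈ Lt2 n
  /-- the Riemann–Roch threshold -/
  n0 : ℕ
  surj : ∀ n, n0 ≤ n → ∀ a b : ι → k,
    ∃ z1 ∈ Lt1 n, ∃ z2 ∈ Lt2 n, (∀ x, e1 x z1 = a x) ∧ ∀ x, e2 x z2 = b x
  /-- the reduced lattice `red (L(D_y + nE)_A)` -/
  Lam : Y → ℕ → Submodule k (R1 × R2)
  /-- the ratio of the two constant reductions of `y` -/
  c : Y → k
  le : ∀ y n, ∀ z ∈ Lam y n, z.1 ∈ Lt1 n ∧ z.2 ∈ Lt2 n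
  dim : ∀ y n, n0 ≤ n →
    finrank k (Lam y n) + Fintype.card ι = finrank k (Lt1 n) + finrank k (Lt2 n)
  pow : ∀ y n, ∀ z ∈ Lam y n, ∀ x, (e1 x z.1) ^ m = c y * (e2 x z.2) ^ m
  mul : ∀ y y' n n', ∀ a ∈ Lam y n, ∀ b ∈ Lam y' n', a * b ∈ Lam (y * y') (n + n')
  one : ∀ n, ∀ z ∈ Lam 1 n, ∀ x, e1 x z.1 = e2 x z.2
  hm : 0 < m

namespace LamData

variable {k : Type*} [Field k] {R1 R2 : Type*} [CommRing R1] [Algebra k R1]
  [CommRing R2] [Algebra k R2] {ι : Type*} [Fintype ι] {Y : Type*} [CommGroup Y] {m : ℕ}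
  (D : LamData k R1 R2 ι Y m)

/-- the evaluations restricted to `Lt1 n` -/
def E1 (n : ℕ) (x : ι) : ↥(D.Lt1 n) →ₗ[k] k := (D.e1 x).toLinearMap ∘ₗ (D.Lt1 n).subtype

/-- the evaluations restricted to `Lt2 n` -/
def E2 (n : ℕ) (x : ι) : ↥(D.Lt2 n) →ₗ[k] k := (D.e2 x).toLinearMap ∘ₗ (D.Lt2 n).subtype

/-- the inclusion `Lt1 n × Lt2 n → R1 × R2` -/
def incl (n : ℕ) : ↥(D.Lt1 n) × ↥(D.Lt2 n) →ₗ[k] R1 × R2 :=
  LinearMap.prodMap (D.Lt1 n).subtype (D.Lt2 n).subtype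

theorem incl_apply (n : ℕ) (z : ↥(D.Lt1 n) × ↥(D.Lt2 n)) :
    D.incl n z = ((z.1 : R1), (z.2 : R2)) := rfl

theorem incl_injective (n : ℕ) : Function.Injective (D.incl n) := by
  intro a b h
  rw [incl_apply, incl_apply, Prod.ext_iff] at h
  exact Prod.ext (Subtype.ext h.1) (Subtype.ext h.2)

/-- `Lam y n` pulled back to `Lt1 n × Lt2 n` -/
def Lam' (y : Y) (n : ℕ) : Submodule k (↥(D.Lt1 n) × ↥(D.Lt2 n)) :=
  (D.Lam y n).comap (D.incl n)

theorem mem_Lam' {y : Y} {n : ℕ} {z : ↥(D.Lt1 n) × ↥(D.Lt2 n)} :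
    z ∈ D.Lam' y n ↔ ((z.1 : R1), (z.2 : R2)) ∈ D.Lam y n := Iff.rfl

theorem map_Lam' (y : Y) (n : ℕ) : (D.Lam' y n).map (D.incl n) = D.Lam y n := by
  refine Submodule.map_comap_eq_of_le ?_
  intro z hz
  obtain ⟨h1, h2⟩ := D.le y n z hz
  exact ⟨(⟨z.1, h1⟩, ⟨z.2, h2⟩), rfl⟩

theorem finrank_Lam' (y : Y) (n : ℕ) : finrank k (D.Lam' y n) = finrank k (D.Lam y n) := by
  have e := Submodule.equivMapOfInjective (D.incl n) (D.incl_injective n) (D.Lam' y n)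
  rw [e.finrank_eq, map_Lam']

theorem evPair_surjective (n : ℕ) (hn : D.n0 ≤ n) :
    Function.Surjective (evPair (D.E1 n) (D.E2 n)) := by
  rintro ⟨a, b⟩
  obtain ⟨z1, hz1, z2, hz2, h1, h2⟩ := D.surj n hn a b
  refine ⟨(⟨z1, hz1⟩, ⟨z2, hz2⟩), ?_⟩
  rw [evPair_apply]
  exact Prod.ext (funext fun x => h1 x) (funext fun x => h2 x)

variable [Infinite k] [DecidableEq ι]

/-- **Structure of the reduced lattice**: for `n ≥ n0`, `Lam y n` is EXACTLY the glued subspace of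
`Lt1 n × Lt2 n` for a family `ξ` of `m`-th roots of `c y`. -/
theorem exists_xi (y : Y) (n : ℕ) (hn : D.n0 ≤ n) :
    ∃ ξ : ι → k, (∀ x, ξ x ^ m = D.c y) ∧ ∀ z : R1 × R2,
      z ∈ D.Lam y n ↔ z.1 ∈ D.Lt1 n ∧ z.2 ∈ D.Lt2 n ∧ ∀ x, D.e1 x z.1 = ξ x * D.e2 x z.2 := by
  haveI := D.fin1 n
  haveI := D.fin2 n
  obtain ⟨ξ, hξ, hΛ⟩ := exists_eq_glueSub (D.E1 n) (D.E2 n) (D.evPair_surjective n hn)
    (D.Lam' y n) D.hm (D.c y)
    (fun z hz x => D.pow y n _ (D.mem_Lam'.1 hz) x)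
    (by rw [finrank_Lam']; exact D.dim y n hn)
  refine ⟨ξ, hξ, fun z => ⟨fun hz => ?_, ?_⟩⟩
  · obtain ⟨h1, h2⟩ := D.le y n z hz
    refine ⟨h1, h2, fun x => ?_⟩
    have : ((⟨z.1, h1⟩, ⟨z.2, h2⟩) : ↥(D.Lt1 n) × ↥(D.Lt2 n)) ∈ D.Lam' y n := D.mem_Lam'.2 hz
    rw [hΛ, mem_glueSub_empty] at this
    exact this x
  · rintro ⟨h1, h2, h3⟩
    have : ((⟨z.1, h1⟩, ⟨z.2, h2⟩) : ↥(D.Lt1 n) × ↥(D.Lt2 n)) ∈ D.Lam' y n := by
      rw [hΛ, mem_glueSub_empty]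
      exact fun x => h3 x
    exact D.mem_Lam'.1 this

/-- a section of `Lam y n` equal to `1` on the second branch of every node -/
theorem exists_mem_Lam_eq_one (y : Y) (n : ℕ) (hn : D.n0 ≤ n) :
    ∃ a ∈ D.Lam y n, ∀ x, D.e2 x a.2 = 1 := by
  obtain ⟨ξ, -, hΛ⟩ := D.exists_xi y n hn
  obtain ⟨z1, hz1, z2, hz2, h1, h2⟩ := D.surj n hn ξ fun _ => 1
  refine ⟨(z1, z2), (hΛ _).2 ⟨hz1, hz2, fun x => ?_⟩, fun x => h2 x⟩
  rw [h1 x, h2 x, mul_one]

/-- **The (SS) core.**  If the reduced lattices of `τz` and `z` coincide (inertia acts trivially on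
the residue fields), then the constant pair `(1, 1)` lies in the reduced lattice of `τz / z`. -/
theorem one_mem_Lam (z τz : Y) (n : ℕ) (hn : D.n0 ≤ n) (hinv : D.Lam τz n = D.Lam z n) :
    ((1 : R1), (1 : R2)) ∈ D.Lam (τz / z) (n + n) := by
  obtain ⟨a, ha, ha2⟩ := D.exists_mem_Lam_eq_one z n hn
  obtain ⟨b, hb, hb2⟩ := D.exists_mem_Lam_eq_one z⁻¹ n hn
  have hab1 : a * b ∈ D.Lam 1 (n + n) := by
    have := D.mul z z⁻¹ n n a ha b hb
    rwa [mul_inv_cancel] at this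
  have haby : a * b ∈ D.Lam (τz / z) (n + n) := by
    have := D.mul τz z⁻¹ n n a (hinv ▸ ha) b hb
    rwa [← div_eq_mul_inv] at this
  obtain ⟨ξ, -, hΛ⟩ := D.exists_xi (τz / z) (n + n) (le_trans hn (Nat.le_add_right n n))
  have hξ : ∀ x, ξ x = 1 := fun x => by
    have h1 := D.one (n + n) (a * b) hab1 x
    have h2 := ((hΛ (a * b)).1 haby).2.2 x
    have h3 : D.e2 x (a * b).2 = 1 := by
      rw [Prod.snd_mul, map_mul, ha2 x, hb2 x, mul_one]
    rw [h1, h3, mul_one] at h2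
    exact h2.symm
  refine (hΛ _).2 ⟨D.one_mem1 _, D.one_mem2 _, fun x => ?_⟩
  rw [hξ x, map_one, map_one, mul_one]

/-! ### The glueing-constant map -/

/-- the glueing constants of `y` at level `n` (meaningful for `n ≥ n0`) -/
noncomputable def xi (y : Y) (n : ℕ) : ι → k :=
  if hn : D.n0 ≤ n then (D.exists_xi y n hn).choose else 1

theorem xi_pow (y : Y) (n : ℕ) (hn : D.n0 ≤ n) (x : ι) : D.xi y n x ^ m = D.c y := by
  rw [xi, dif_pos hn]
  exact (D.exists_xi y n hn).choose_spec.1 x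

theorem xi_spec (y : Y) (n : ℕ) (hn : D.n0 ≤ n) (z : R1 × R2) :
    z ∈ D.Lam y n ↔
      z.1 ∈ D.Lt1 n ∧ z.2 ∈ D.Lt2 n ∧ ∀ x, D.e1 x z.1 = D.xi y n x * D.e2 x z.2 := by
  rw [xi, dif_pos hn]
  exact (D.exists_xi y n hn).choose_spec.2 z

/-- the glueing constants are determined by ONE section non-vanishing at the nodes -/
theorem xi_unique (y : Y) (n : ℕ) (hn : D.n0 ≤ n) {a : R1 × R2} (ha : a ∈ D.Lam y n)
    (ξ : ι → k) (h : ∀ x, D.e1 x a.1 = ξ x * D.e2 x a.2) (h0 : ∀ x, D.e2 x a.2 ≠ 0) :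
    D.xi y n = ξ := by
  funext x
  have h1 := ((D.xi_spec y n hn a).1 ha).2.2 x
  rw [h x] at h1
  exact (mul_right_cancel₀ (h0 x) h1).symm

theorem xi_congr {y y' : Y} (n : ℕ) (hn : D.n0 ≤ n) (h : D.Lam y n = D.Lam y' n) :
    D.xi y n = D.xi y' n := by
  obtain ⟨a, ha, ha2⟩ := D.exists_mem_Lam_eq_one y n hn
  refine D.xi_unique y n hn ha _ (fun x => ?_) fun x => by rw [ha2 x]; exact one_ne_zero
  exact ((D.xi_spec y' n hn a).1 (h ▸ ha)).2.2 x

theorem xi_one (n : ℕ) (hn : D.n0 ≤ n) : D.xi 1 n = 1 := by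
  obtain ⟨a, ha, ha2⟩ := D.exists_mem_Lam_eq_one 1 n hn
  refine D.xi_unique 1 n hn ha 1 (fun x => ?_) fun x => by rw [ha2 x]; exact one_ne_zero
  rw [D.one n a ha x, Pi.one_apply, one_mul]

theorem xi_mul (y y' : Y) (n n' : ℕ) (hn : D.n0 ≤ n) (hn' : D.n0 ≤ n') :
    D.xi (y * y') (n + n') = D.xi y n * D.xi y' n' := by
  obtain ⟨a, ha, ha2⟩ := D.exists_mem_Lam_eq_one y n hn
  obtain ⟨b, hb, hb2⟩ := D.exists_mem_Lam_eq_one y' n' hn'
  refine D.xi_unique (y * y') (n + n') (le_trans hn (Nat.le_add_right n n'))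
    (D.mul y y' n n' a ha b hb) _ (fun x => ?_) fun x => ?_
  · have h1 := ((D.xi_spec y n hn a).1 ha).2.2 x
    have h2 := ((D.xi_spec y' n' hn' b).1 hb).2.2 x
    rw [Prod.fst_mul, Prod.snd_mul, map_mul, map_mul, h1, h2, Pi.mul_apply]
    ring
  · rw [Prod.snd_mul, map_mul, ha2 x, hb2 x, mul_one]
    exact one_ne_zero

/-- the glueing constants do not depend on the level -/
theorem xi_add (y : Y) (n n' : ℕ) (hn : D.n0 ≤ n) (hn' : D.n0 ≤ n') :
    D.xi y (n + n') = D.xi y n := by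
  have := D.xi_mul y 1 n n' hn hn'
  rwa [mul_one, D.xi_one n' hn', mul_one] at this

/-- **Criterion for Claim 2**: the constant pair `(1, 1)` lies in `Lam y n` as soon as the glueing
constants of `y` are trivial. -/
theorem one_mem_Lam_of_xi (y : Y) (n : ℕ) (hn : D.n0 ≤ n) (h : D.xi y n = 1) :
    ((1 : R1), (1 : R2)) ∈ D.Lam y n := by
  refine (D.xi_spec y n hn _).2 ⟨D.one_mem1 _, D.one_mem2 _, fun x => ?_⟩
  rw [h, map_one, map_one, Pi.one_apply, mul_one]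

end LamData

end Fermat.Agent.GK.Glue
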