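/-
GATE-K / (G1) "φ² = q² on K", abstract half, part 1 (helper40).  Mathlib + `GlueCore` only.

On top of helper47's `LamData` (`GK/Glue/GlueCore.lean`):

* `LamData.xi_eq_of_le`, `xi_mul'`, `xi_pow_nat`, `xi_div_eq_one`, `xi_ne_zero` : the
  glueing-constant map is level independent and multiplicative at a FIXED level;
* `LamData.SemiSymm` : a SEMILINEAR symmetry of the reduced-lattice package (the shadow of an element
  `φ` of the decomposition group): `fk` the induced endomorphism of the residue field, `S1`, `S2`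
  the induced (semilinear) maps on the two coordinate rings, `π` the induced permutation of the
  nodes, `s` the action on the admissible units, with `e_i (π x) (S_i a) = fk (e_i x a)` and
  `S (Lam y n) ⊆ Lam (s y) n`;
* `LamData.xi_semilinear` : `ξ(s y)(π x) = fk (ξ(y)(x))`;
* `LamData.xi_frob_sq`, `one_mem_Lam_frob_sq` : for a Frobenius (`fk c = c ^ q`, `π² = 1` on the
  nodes) `ξ(s² y) = ξ(y ^ (q²))`, hence `(1, 1) ∈ Lam (s² y / y ^ (q²)) n` for `n ≥ n0`;
* `LamData.xi_of_trivial` : inertia (`fk = id`, `π = 1`) fixes `ξ`.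

Part 2 (`GK/SS/FrobSq.lean`) turns this into `φ² z = z ^ (q²) · constant · m-th power`.
-/
import Fermat.Agent.GK.Glue.GlueCore

set_option autoImplicit false

namespace Fermat.Agent.GK.Glue

open Module

namespace LamData

variable {k : Type*} [Field k] {R1 R2 : Type*} [CommRing R1] [Algebra k R1]
  [CommRing R2] [Algebra k R2] {ι : Type*} [Fintype ι] {Y : Type*} [CommGroup Y] {m : ℕ}
  (D : LamData k R1 R2 ι Y m)

/-- A **semilinear symmetry** of the reduced-lattice package (the shadow of an element of the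
decomposition group): `fk` on the residue field, `S1`, `S2` on the coordinate rings of the two
components, `π` on the nodes, `s` on the admissible units. -/
structure SemiSymm where
  /-- the induced endomorphism of the residue field -/
  fk : k →+* k
  /-- the induced map on the first coordinate ring -/
  S1 : R1 → R1
  /-- the induced map on the second coordinate ring -/
  S2 : R2 → R2
  /-- the induced permutation of the nodes -/
  π : Equiv.Perm ι
  /-- the action on the admissible units -/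
  s : Y → Y
  e1_S : ∀ x a, D.e1 (π x) (S1 a) = fk (D.e1 x a)
  e2_S : ∀ x b, D.e2 (π x) (S2 b) = fk (D.e2 x b)
  map_Lam : ∀ y n, ∀ z ∈ D.Lam y n, (S1 z.1, S2 z.2) ∈ D.Lam (s y) n

variable [Infinite k] [DecidableEq ι]

/-- the glueing constants do not depend on the level (beyond the threshold) -/
theorem xi_eq_of_le (y : Y) {n n' : ℕ} (hn : D.n0 ≤ n) (hn' : D.n0 ≤ n') :
    D.xi y n = D.xi y n' := by
  rw [← D.xi_add y n n' hn hn', add_comm, D.xi_add y n' n hn' hn]

/-- multiplicativity at a fixed level -/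
theorem xi_mul' (y y' : Y) (n : ℕ) (hn : D.n0 ≤ n) :
    D.xi (y * y') n = D.xi y n * D.xi y' n := by
  rw [D.xi_eq_of_le (y * y') hn (le_trans hn (Nat.le_add_right n n)), D.xi_mul y y' n n hn hn]

theorem xi_pow_nat (y : Y) (j : ℕ) (n : ℕ) (hn : D.n0 ≤ n) :
    D.xi (y ^ j) n = D.xi y n ^ j := by
  induction j with
  | zero => rw [pow_zero, pow_zero, D.xi_one n hn]
  | succ j ih => rw [pow_succ, pow_succ, D.xi_mul' _ _ n hn, ih]

/-- equal glueing constants ⟹ the quotient has trivial glueing constants -/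
theorem xi_div_eq_one {a b : Y} (n : ℕ) (hn : D.n0 ≤ n) (h : D.xi a n = D.xi b n) :
    D.xi (a / b) n = 1 := by
  rw [div_eq_mul_inv, D.xi_mul' a b⁻¹ n hn, h, ← D.xi_mul' b b⁻¹ n hn, mul_inv_cancel,
    D.xi_one n hn]

/-- the glueing constants never vanish -/
theorem xi_ne_zero (y : Y) (n : ℕ) (hn : D.n0 ≤ n) (x : ι) : D.xi y n x ≠ 0 := by
  intro h0
  have h := congrFun (D.xi_mul' y y⁻¹ n hn) x
  rw [mul_inv_cancel, D.xi_one n hn, Pi.mul_apply, h0, zero_mul, Pi.one_apply] at h
  exact one_ne_zero h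

/-- **The glueing constants are semilinear**: `ξ(s y)(π x) = fk (ξ(y)(x))`. -/
theorem xi_semilinear (T : D.SemiSymm) (y : Y) (n : ℕ) (hn : D.n0 ≤ n) (x : ι) :
    D.xi (T.s y) n (T.π x) = T.fk (D.xi y n x) := by
  obtain ⟨a, ha, ha2⟩ := D.exists_mem_Lam_eq_one y n hn
  have ha' := T.map_Lam y n a ha
  have h2 : ∀ x', D.e2 x' (T.S1 a.1, T.S2 a.2).2 = 1 := fun x' => by
    have := T.e2_S (T.π.symm x') a.2
    rw [Equiv.apply_symm_apply] at this
    show D.e2 x' (T.S2 a.2) = 1
    rw [this, ha2, map_one]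
  have h := D.xi_unique (T.s y) n hn ha' (fun x' => T.fk (D.xi y n (T.π.symm x')))
    (fun x' => by
      have h1 := T.e1_S (T.π.symm x') a.1
      rw [Equiv.apply_symm_apply] at h1
      show D.e1 x' (T.S1 a.1) = _
      rw [h1, h2 x', mul_one, ((D.xi_spec y n hn a).1 ha).2.2 (T.π.symm x'), ha2, mul_one])
    (fun x' => by rw [h2 x']; exact one_ne_zero)
  rw [h]
  show T.fk (D.xi y n (T.π.symm (T.π x))) = _
  rw [Equiv.symm_apply_apply]

/-- the semilinear symmetry acts on the glueing constants through `π` and `fk` (function form) -/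
theorem xi_semilinear' (T : D.SemiSymm) (y : Y) (n : ℕ) (hn : D.n0 ≤ n) :
    D.xi (T.s y) n = fun x => T.fk (D.xi y n (T.π.symm x)) := by
  funext x
  have := D.xi_semilinear T y n hn (T.π.symm x)
  rwa [Equiv.apply_symm_apply] at this

/-- **Frobenius squared on the glueing constants**: if `fk` is the `q`-power map and `π² = 1` on
the nodes, then `ξ(s² y) = ξ(y) ^ (q²) = ξ(y ^ (q²))`. -/
theorem xi_frob_sq (T : D.SemiSymm) (q : ℕ) (hq : ∀ c, T.fk c = c ^ q)
    (hπ : ∀ x, T.π (T.π x) = x) (y : Y) (n : ℕ) (hn : D.n0 ≤ n) :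
    D.xi (T.s (T.s y)) n = D.xi (y ^ (q ^ 2)) n := by
  funext x
  have h1 := D.xi_semilinear T (T.s y) n hn (T.π x)
  rw [hπ x] at h1
  rw [h1, D.xi_semilinear T y n hn x, hq, hq, D.xi_pow_nat y _ n hn, Pi.pow_apply, ← pow_mul, sq]

/-- **(G1), lattice form**: for a Frobenius symmetry the constant pair `(1, 1)` lies in the reduced
lattice of `s² y / y ^ (q²)` — the input of Claim 2 (in whichever consumer form). -/
theorem one_mem_Lam_frob_sq (T : D.SemiSymm) (q : ℕ) (hq : ∀ c, T.fk c = c ^ q)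
    (hπ : ∀ x, T.π (T.π x) = x) (y : Y) (n : ℕ) (hn : D.n0 ≤ n) :
    ((1 : R1), (1 : R2)) ∈ D.Lam (T.s (T.s y) / y ^ (q ^ 2)) n :=
  D.one_mem_Lam_of_xi _ n hn (D.xi_div_eq_one n hn (D.xi_frob_sq T q hq hπ y n hn))

/-- a symmetry with `fk = id` and `π = 1` (the shadow of an inertia element) fixes `ξ` -/
theorem xi_of_trivial (T : D.SemiSymm) (hfk : ∀ c, T.fk c = c) (hπ : ∀ x, T.π x = x) (y : Y)
    (n : ℕ) (hn : D.n0 ≤ n) : D.xi (T.s y) n = D.xi y n := by
  funext x
  have h := D.xi_semilinear T y n hn x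
  rwa [hπ x, hfk] at h

end LamData

end Fermat.Agent.GK.Glue
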