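/-
GATE-K / N8b supplement (helper47): level independence of the glueing constants and the
consumer form of "`ξ(y) = 1`" used for the hypothesis `hLam` of helper30's `claim2_core`
(helper39's STACK RULING 1, part C).

* `xi_level` : `ξ(y)` at level `n ≥ n0` equals `ξ(y)` at level `n' ≥ n0`;
* `xi_eq_one_of_one_mem` : `(1, 1) ∈ Λ_y(n) ⟹ ξ(y) = 1`;
* `Lam_eq_Lam_one_of_one_mem` : `(1, 1) ∈ Λ_y(n)`, `n ≥ n0` `⟹ Λ_y(b) = Λ_1(b)` for ALL `b ≥ n0`;
* `Lam_eq_Lam_one_iff` : `Λ_y(b) = Λ_1(b) ↔ ξ(y) = 1`.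
-/
import Fermat.Agent.GK.Glue.GlueCore

set_option autoImplicit false

namespace Fermat.Agent.GK.Glue

namespace LamData

variable {k : Type*} [Field k] [Infinite k] {R1 R2 : Type*} [CommRing R1] [Algebra k R1]
  [CommRing R2] [Algebra k R2] {ι : Type*} [Fintype ι] [DecidableEq ι]
  {Y : Type*} [CommGroup Y] {m : ℕ} (D : LamData k R1 R2 ι Y m)

/-- the glueing constants do not depend on the level (two-sided form of `xi_add`) -/
theorem xi_level (y : Y) (n n' : ℕ) (hn : D.n0 ≤ n) (hn' : D.n0 ≤ n') :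
    D.xi y n = D.xi y n' := by
  rw [← D.xi_add y n n' hn hn', add_comm, D.xi_add y n' n hn' hn]

/-- the constant pair in the reduced lattice forces trivial glueing constants -/
theorem xi_eq_one_of_one_mem (y : Y) (n : ℕ) (hn : D.n0 ≤ n)
    (h : ((1 : R1), (1 : R2)) ∈ D.Lam y n) : D.xi y n = 1 := by
  refine D.xi_unique y n hn h 1 (fun x => ?_) fun x => ?_
  · rw [map_one, map_one, Pi.one_apply, mul_one]
  · rw [map_one]
    exact one_ne_zero

/-- trivial glueing constants: the reduced lattice of `y` is the one of `1` -/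
theorem Lam_eq_Lam_one_of_xi (y : Y) (b : ℕ) (hb : D.n0 ≤ b) (h : D.xi y b = 1) :
    D.Lam y b = D.Lam 1 b := by
  ext z
  rw [D.xi_spec y b hb, D.xi_spec 1 b hb, h, D.xi_one b hb]

/-- **consumer form of `ξ(y) = 1`**: if the constant pair lies in `Λ_y(n)` for ONE `n ≥ n0`, then
`Λ_y(b) = Λ_1(b)` for ALL `b ≥ n0`. -/
theorem Lam_eq_Lam_one_of_one_mem (y : Y) (n : ℕ) (hn : D.n0 ≤ n)
    (h : ((1 : R1), (1 : R2)) ∈ D.Lam y n) (b : ℕ) (hb : D.n0 ≤ b) :
    D.Lam y b = D.Lam 1 b := by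
  refine D.Lam_eq_Lam_one_of_xi y b hb ?_
  rw [D.xi_level y b n hb hn]
  exact D.xi_eq_one_of_one_mem y n hn h

theorem Lam_eq_Lam_one_iff (y : Y) (b : ℕ) (hb : D.n0 ≤ b) :
    D.Lam y b = D.Lam 1 b ↔ D.xi y b = 1 := by
  constructor
  · intro h
    rw [D.xi_congr b hb h, D.xi_one b hb]
  · exact D.Lam_eq_Lam_one_of_xi y b hb

end LamData

end Fermat.Agent.GK.Glue
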